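/-
S19lib / D / Trans  (helper3)  — Project FF, block FF-D, part 1

From analytic solutions of the trilinear relation `Θ_a u + Θ_b v + Θ_c w = 0` (`Geom.Solve`) to
* the transition maps `chi` between two chart families of a configuration,
* the group law `addMap` and the negation `negMap` in the chart `a`,
with their specifications (`Θ_b (chi v) = Θ_a v`, `Θ_a (addMap (u, v)) = Θ_a u + Θ_a v`, …) and
their analyticity, given the composition property `CompStmt` of analytic maps (block FF-An).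
-/
import Fermat.Agent.S19lib.Geom.Family

set_option autoImplicit false
set_option linter.unusedSectionVars false

noncomputable section

namespace Fermat.Agent.S19lib.D

open AlgebraicCurve Fermat.Agent.S18lib Fermat.Agent.S19lib.Geom

/-! ### elementary analytic maps -/

section AnBasic

variable {L : Type*} [Field L] (A : ValuationSubring L) (R : Subring L) (ϖ : L)

/-- **composition of analytic maps** (block FF-An) -/
def CompStmt : Prop :=
  ∀ (ι κ μ : Type) [Finite ι] [Finite κ] [Finite μ] (f : (κ → L) → μ → L) (g : (ι → L) → κ → L),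
    AnalyticMap A R ϖ f → AnalyticMap A R ϖ g → (∀ u ∈ PolyDisc A ι, g u ∈ PolyDisc A κ) →
      AnalyticMap A R ϖ (fun u => f (g u))

variable {A R ϖ}

/-- a polynomial function with coefficients in `R` is analytic -/
theorem analyticOn_eval {ι : Type*} (P : MvPolynomial ι L) (hP : ∀ m, P.coeff m ∈ R) :
    AnalyticOn A R ϖ (fun u => MvPolynomial.eval u P) := by
  intro M
  refine ⟨P, hP, fun u _ c _ _ => ?_⟩
  rw [sub_self, map_zero]
  exact zero_le'

theorem analyticOn_coord {ι : Type*} (i : ι) : AnalyticOn A R ϖ (fun u : ι → L => u i) := by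
  classical
  have := analyticOn_eval (A := A) (R := R) (ϖ := ϖ) (MvPolynomial.X i : MvPolynomial ι L)
    (fun m => by
      rw [MvPolynomial.coeff_X']
      split_ifs
      · exact R.one_mem
      · exact R.zero_mem)
  refine this.congr A fun u _ => ?_
  rw [MvPolynomial.eval_X]

theorem analyticOn_const {ι : Type*} {c : L} (hc : c ∈ R) :
    AnalyticOn A R ϖ (fun _ : ι → L => c) := by
  classical
  have := analyticOn_eval (A := A) (R := R) (ϖ := ϖ) (MvPolynomial.C c : MvPolynomial ι L)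
    (fun m => by
      rw [MvPolynomial.coeff_C]
      split_ifs
      · exact hc
      · exact R.zero_mem)
  refine this.congr A fun u _ => ?_
  rw [MvPolynomial.eval_C]

/-- `u ↦ (u, 0)` -/
def inlMap {g : ℕ} (u : Fin g → L) : Fin g ⊕ Fin g → L := Sum.elim u 0

/-- `v ↦ (0, v)` -/
def inrMap {g : ℕ} (v : Fin g → L) : Fin g ⊕ Fin g → L := Sum.elim 0 v

theorem analyticMap_inlMap {g : ℕ} : AnalyticMap A R ϖ (inlMap (L := L) (g := g)) := by
  rintro (j | j)
  · exact analyticOn_coord j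
  · exact analyticOn_const R.zero_mem

theorem analyticMap_inrMap {g : ℕ} : AnalyticMap A R ϖ (inrMap (L := L) (g := g)) := by
  rintro (j | j)
  · exact analyticOn_const R.zero_mem
  · exact analyticOn_coord j

theorem inlMap_mem {g : ℕ} {u : Fin g → L} (hu : u ∈ PolyDisc A (Fin g)) :
    inlMap u ∈ PolyDisc A (Fin g ⊕ Fin g) := by
  rintro (j | j)
  · exact hu j
  · show A.valuation 0 < 1
    rw [map_zero]; exact zero_lt_one

theorem inrMap_mem {g : ℕ} {v : Fin g → L} (hv : v ∈ PolyDisc A (Fin g)) :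
    inrMap v ∈ PolyDisc A (Fin g ⊕ Fin g) := by
  rintro (j | j)
  · show A.valuation 0 < 1
    rw [map_zero]; exact zero_lt_one
  · exact hv j

theorem zero_mem_polyDisc {ι : Type*} : (0 : ι → L) ∈ PolyDisc A ι := fun _ => by
  show A.valuation 0 < 1
  rw [map_zero]; exact zero_lt_one

/-- pairing of two analytic maps -/
theorem analyticMap_elim {ι : Type*} {g : ℕ} {f₁ f₂ : (ι → L) → Fin g → L}
    (h₁ : AnalyticMap A R ϖ f₁) (h₂ : AnalyticMap A R ϖ f₂) :
    AnalyticMap A R ϖ (fun u => (Sum.elim (f₁ u) (f₂ u) : Fin g ⊕ Fin g → L)) := by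
  rintro (j | j)
  · exact h₁ j
  · exact h₂ j

theorem elim_mem {g : ℕ} {u v : Fin g → L} (hu : u ∈ PolyDisc A (Fin g))
    (hv : v ∈ PolyDisc A (Fin g)) : (Sum.elim u v : Fin g ⊕ Fin g → L) ∈ PolyDisc A (Fin g ⊕ Fin g) := by
  rintro (j | j)
  · exact hu j
  · exact hv j

/-- the two projections -/
def fstMap {g : ℕ} (w : Fin g ⊕ Fin g → L) : Fin g → L := fun i => w (Sum.inl i)

/-- the second projection -/
def sndMap {g : ℕ} (w : Fin g ⊕ Fin g → L) : Fin g → L := fun i => w (Sum.inr i)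

theorem analyticMap_fstMap {g : ℕ} : AnalyticMap A R ϖ (fstMap (L := L) (g := g)) :=
  fun j => analyticOn_coord (Sum.inl j)

theorem analyticMap_sndMap {g : ℕ} : AnalyticMap A R ϖ (sndMap (L := L) (g := g)) :=
  fun j => analyticOn_coord (Sum.inr j)

theorem fstMap_mem {g : ℕ} {w : Fin g ⊕ Fin g → L} (hw : w ∈ PolyDisc A (Fin g ⊕ Fin g)) :
    fstMap w ∈ PolyDisc A (Fin g) := fun i => hw (Sum.inl i)

theorem sndMap_mem {g : ℕ} {w : Fin g ⊕ Fin g → L} (hw : w ∈ PolyDisc A (Fin g ⊕ Fin g)) :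
    sndMap w ∈ PolyDisc A (Fin g) := fun i => hw (Sum.inr i)

end AnBasic

/-! ### consequences of one solution -/

variable {L : Type*} [Field L] {A : ValuationSubring L}
variable {F : Type*} [Field F] [Algebra L F]
variable {Fk : Type*} [Field Fk] [Algebra (IsLocalRing.ResidueField A) Fk]
variable [HasPrincipalDivisors L F] [HasPrincipalDivisors (IsLocalRing.ResidueField A) Fk]
variable {G : Type*} [Group G] {D : RedDatum A F Fk} {S : SymData D G} {g : ℕ} {ϖ : L}

section One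

variable {a b c : Fam D S g} (s : Solve a b c ϖ)

theorem _root_.Fermat.Agent.S19lib.Geom.Solve.spec' {u v : Fin g → L} (hu : u ∈ PolyDisc A (Fin g)) (hv : v ∈ PolyDisc A (Fin g)) :
    c.Θ (s.τ (Sum.elim u v)) = -(a.Θ u + b.Θ v) := by
  have := s.spec (Sum.elim u v) (elim_mem hu hv)
  exact eq_neg_of_add_eq_zero_right this

theorem _root_.Fermat.Agent.S19lib.Geom.Solve.spec_inl {u : Fin g → L} (hu : u ∈ PolyDisc A (Fin g)) :
    c.Θ (s.τ (inlMap u)) = -a.Θ u := by
  have := s.spec' hu zero_mem_polyDisc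
  rwa [b.Θ_zero, add_zero] at this

theorem _root_.Fermat.Agent.S19lib.Geom.Solve.spec_inr {v : Fin g → L} (hv : v ∈ PolyDisc A (Fin g)) :
    c.Θ (s.τ (inrMap v)) = -b.Θ v := by
  have := s.spec' zero_mem_polyDisc hv
  rwa [a.Θ_zero, zero_add] at this

end One

/-! ### a configuration: three solutions -/

/-- three admissible families with the three analytic solutions of their trilinear relation -/
structure Tri (a b c : Fam D S g) (ϖ : L) where
  /-- solve for `c` -/
  sab : Solve a b c ϖ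
  /-- solve for `a` -/
  sbc : Solve b c a ϖ
  /-- solve for `b` -/
  sca : Solve c a b ϖ

namespace Tri

variable {a b c : Fam D S g} (T : Tri a b c ϖ)

/-- the transition `a → b` : `Θ_b (chiAB v) = Θ_a v` -/
def chiAB (v : Fin g → L) : Fin g → L := T.sca.τ (inlMap (T.sab.τ (inlMap v)))

/-- the transition `b → a` : `Θ_a (chiBA v) = Θ_b v` -/
def chiBA (v : Fin g → L) : Fin g → L := T.sbc.τ (inrMap (T.sab.τ (inrMap v)))

/-- addition in the chart `a` -/
def addMap (w : Fin g ⊕ Fin g → L) : Fin g → L :=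
  T.sbc.τ (inrMap (T.sab.τ (Sum.elim (fstMap w) (T.chiAB (sndMap w)))))

/-- negation in the chart `a` -/
def negMap (u : Fin g → L) : Fin g → L := T.sbc.τ (inlMap (T.chiAB u))

theorem chiAB_mem {v : Fin g → L} (hv : v ∈ PolyDisc A (Fin g)) :
    T.chiAB v ∈ PolyDisc A (Fin g) :=
  T.sca.mem _ (inlMap_mem (T.sab.mem _ (inlMap_mem hv)))

theorem chiBA_mem {v : Fin g → L} (hv : v ∈ PolyDisc A (Fin g)) :
    T.chiBA v ∈ PolyDisc A (Fin g) :=
  T.sbc.mem _ (inrMap_mem (T.sab.mem _ (inrMap_mem hv)))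

theorem Θ_chiAB {v : Fin g → L} (hv : v ∈ PolyDisc A (Fin g)) : b.Θ (T.chiAB v) = a.Θ v := by
  rw [chiAB, T.sca.spec_inl (T.sab.mem _ (inlMap_mem hv)), T.sab.spec_inl hv, neg_neg]

theorem Θ_chiBA {v : Fin g → L} (hv : v ∈ PolyDisc A (Fin g)) : a.Θ (T.chiBA v) = b.Θ v := by
  rw [chiBA, T.sbc.spec_inr (T.sab.mem _ (inrMap_mem hv)), T.sab.spec_inr hv, neg_neg]

theorem addMap_mem {w : Fin g ⊕ Fin g → L} (hw : w ∈ PolyDisc A (Fin g ⊕ Fin g)) :
    T.addMap w ∈ PolyDisc A (Fin g) :=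
  T.sbc.mem _ (inrMap_mem (T.sab.mem _ (elim_mem (fstMap_mem hw) (T.chiAB_mem (sndMap_mem hw)))))

theorem Θ_addMap {w : Fin g ⊕ Fin g → L} (hw : w ∈ PolyDisc A (Fin g ⊕ Fin g)) :
    a.Θ (T.addMap w) = a.Θ (fstMap w) + a.Θ (sndMap w) := by
  rw [addMap, T.sbc.spec_inr (T.sab.mem _ (elim_mem (fstMap_mem hw) (T.chiAB_mem (sndMap_mem hw)))),
    T.sab.spec' (fstMap_mem hw) (T.chiAB_mem (sndMap_mem hw)), T.Θ_chiAB (sndMap_mem hw), neg_neg]

theorem negMap_mem {u : Fin g → L} (hu : u ∈ PolyDisc A (Fin g)) :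
    T.negMap u ∈ PolyDisc A (Fin g) :=
  T.sbc.mem _ (inlMap_mem (T.chiAB_mem hu))

theorem Θ_negMap {u : Fin g → L} (hu : u ∈ PolyDisc A (Fin g)) : a.Θ (T.negMap u) = -a.Θ u := by
  rw [negMap, T.sbc.spec_inl (T.chiAB_mem hu), T.Θ_chiAB hu]

/-! ### analyticity -/

variable (hcomp : CompStmt A S.R ϖ)
include hcomp

theorem analyticMap_chiAB : AnalyticMap A S.R ϖ T.chiAB := by
  have h1 : AnalyticMap A S.R ϖ (fun v : Fin g → L => T.sab.τ (inlMap v)) :=
    hcomp _ _ _ T.sab.τ inlMap T.sab.an analyticMap_inlMap (fun u hu => inlMap_mem hu)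
  have h2 : AnalyticMap A S.R ϖ (fun v : Fin g → L => inlMap (T.sab.τ (inlMap v))) :=
    hcomp _ _ _ inlMap _ analyticMap_inlMap h1 (fun u hu => T.sab.mem _ (inlMap_mem hu))
  exact hcomp _ _ _ T.sca.τ _ T.sca.an h2
    (fun u hu => inlMap_mem (T.sab.mem _ (inlMap_mem hu)))

theorem analyticMap_chiBA : AnalyticMap A S.R ϖ T.chiBA := by
  have h1 : AnalyticMap A S.R ϖ (fun v : Fin g → L => T.sab.τ (inrMap v)) :=
    hcomp _ _ _ T.sab.τ inrMap T.sab.an analyticMap_inrMap (fun u hu => inrMap_mem hu)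
  have h2 : AnalyticMap A S.R ϖ (fun v : Fin g → L => inrMap (T.sab.τ (inrMap v))) :=
    hcomp _ _ _ inrMap _ analyticMap_inrMap h1 (fun u hu => T.sab.mem _ (inrMap_mem hu))
  exact hcomp _ _ _ T.sbc.τ _ T.sbc.an h2
    (fun u hu => inrMap_mem (T.sab.mem _ (inrMap_mem hu)))

theorem analyticMap_addMap : AnalyticMap A S.R ϖ T.addMap := by
  have h0 : AnalyticMap A S.R ϖ (fun w : Fin g ⊕ Fin g → L => T.chiAB (sndMap w)) :=
    hcomp _ _ _ T.chiAB sndMap (T.analyticMap_chiAB hcomp) analyticMap_sndMap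
      (fun w hw => sndMap_mem hw)
  have h1 : AnalyticMap A S.R ϖ
      (fun w : Fin g ⊕ Fin g → L => (Sum.elim (fstMap w) (T.chiAB (sndMap w)) : Fin g ⊕ Fin g → L)) :=
    analyticMap_elim analyticMap_fstMap h0
  have h2 : AnalyticMap A S.R ϖ
      (fun w : Fin g ⊕ Fin g → L => T.sab.τ (Sum.elim (fstMap w) (T.chiAB (sndMap w)))) :=
    hcomp _ _ _ T.sab.τ _ T.sab.an h1
      (fun w hw => elim_mem (fstMap_mem hw) (T.chiAB_mem (sndMap_mem hw)))
  have h3 : AnalyticMap A S.R ϖ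
      (fun w : Fin g ⊕ Fin g → L =>
        inrMap (T.sab.τ (Sum.elim (fstMap w) (T.chiAB (sndMap w))))) :=
    hcomp _ _ _ inrMap _ analyticMap_inrMap h2
      (fun w hw => T.sab.mem _ (elim_mem (fstMap_mem hw) (T.chiAB_mem (sndMap_mem hw))))
  exact hcomp _ _ _ T.sbc.τ _ T.sbc.an h3
    (fun w hw => inrMap_mem
      (T.sab.mem _ (elim_mem (fstMap_mem hw) (T.chiAB_mem (sndMap_mem hw)))))

theorem analyticMap_negMap : AnalyticMap A S.R ϖ T.negMap := by
  have h1 : AnalyticMap A S.R ϖ (fun u : Fin g → L => inlMap (T.chiAB u)) :=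
    hcomp _ _ _ inlMap _ analyticMap_inlMap (T.analyticMap_chiAB hcomp)
      (fun u hu => T.chiAB_mem hu)
  exact hcomp _ _ _ T.sbc.τ _ T.sbc.an h1 (fun u hu => inlMap_mem (T.chiAB_mem hu))

end Tri

end Fermat.Agent.S19lib.D

end
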