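/-
S19lib / D / Comp  (helper3)  — Project FF, block FF-D, part 6

`CompStmt A (A0 A) ℓ` : composition of `A0`-analytic maps, from helper4's calculus
(`An/Calc.analyticMap_comp`) and the unramifiedness of the inertia-fixed field
(`S36lib.Desc.exists_zpow_mul_unit`: an inertia-fixed element of `𝔪_A` is divisible by `ℓ`).
-/
import Fermat.Agent.S19lib.D.Trans
import Fermat.Agent.S19lib.An.Calc
import Fermat.Agent.S36lib.Desc.Base

set_option autoImplicit false
set_option linter.unusedSectionVars false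

noncomputable section

namespace Fermat.Agent.S19lib.D

local notation "Qb" => AlgebraicClosure ℚ

/-- an inertia-fixed element of the maximal ideal is divisible by `ℓ` -/
theorem valuation_le_of_mem_A0 {ℓ : ℕ} (hℓ : ℓ.Prime) (A : ValuationSubring Qb)
    (hA : A.LiesOverPrime ℓ) {ε : Qb} (hε : ε ∈ A0 A) (hlt : A.valuation ε < 1) :
    A.valuation ε ≤ A.valuation ((ℓ : ℕ) : Qb) := by
  rcases eq_or_ne ε 0 with rfl | h0
  · rw [map_zero]; exact zero_le'
  obtain ⟨m, hm⟩ := Fermat.Agent.S36lib.Desc.exists_zpow_mul_unit A hℓ hA h0 hε.2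
  rw [map_mul, map_zpow₀] at hm
  have hq1 : A.valuation ((ℓ : ℕ) : Qb) < 1 := (A.mem_nonunits_iff).mp hA
  have hq0 : A.valuation ((ℓ : ℕ) : Qb) ≠ 0 := by
    rw [Valuation.ne_zero_iff]; exact_mod_cast hℓ.ne_zero
  have hqpos : 0 < A.valuation ((ℓ : ℕ) : Qb) := zero_lt_iff.2 hq0
  -- `m < 0`
  have hm_neg : m < 0 := by
    by_contra hge
    push Not at hge
    obtain ⟨n, rfl⟩ := Int.eq_ofNat_of_zero_le hge
    rw [zpow_natCast] at hm
    have h1 : A.valuation ((ℓ : ℕ) : Qb) ^ n ≤ 1 := pow_le_one₀ hqpos.le hq1.le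
    have h2 : A.valuation ε * A.valuation ((ℓ : ℕ) : Qb) ^ n < 1 := by
      calc A.valuation ε * A.valuation ((ℓ : ℕ) : Qb) ^ n ≤ A.valuation ε * 1 := by gcongr
        _ = A.valuation ε := mul_one _
        _ < 1 := hlt
    rw [hm] at h2
    exact lt_irrefl _ h2
  obtain ⟨n, hn⟩ : ∃ n : ℕ, m = -((n : ℤ) + 1) := ⟨(-m - 1).toNat, by omega⟩
  have hv : A.valuation ε = A.valuation ((ℓ : ℕ) : Qb) ^ (n + 1) := by
    rw [hn, zpow_neg, ← Nat.cast_succ, zpow_natCast] at hm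
    have hne : A.valuation ((ℓ : ℕ) : Qb) ^ (n + 1) ≠ 0 := pow_ne_zero _ hq0
    calc A.valuation ε = A.valuation ε * (A.valuation ((ℓ : ℕ) : Qb) ^ (n + 1))⁻¹
          * A.valuation ((ℓ : ℕ) : Qb) ^ (n + 1) := by
            rw [mul_assoc, inv_mul_cancel₀ hne, mul_one]
      _ = A.valuation ((ℓ : ℕ) : Qb) ^ (n + 1) := by rw [hm, one_mul]
  rw [hv, pow_succ]
  calc A.valuation ((ℓ : ℕ) : Qb) ^ n * A.valuation ((ℓ : ℕ) : Qb)
      ≤ 1 * A.valuation ((ℓ : ℕ) : Qb) := by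
        gcongr
        exact pow_le_one₀ hqpos.le hq1.le
    _ = A.valuation ((ℓ : ℕ) : Qb) := one_mul _

/-- **composition of `A0`-analytic maps** -/
theorem compStmt_A0 {ℓ : ℕ} [Fact ℓ.Prime] (A : ValuationSubring Qb) (hA : A.LiesOverPrime ℓ) :
    CompStmt A (A0 A) ((ℓ : ℕ) : Qb) := by
  intro ι κ μ _ _ _ f g hf hg hgm
  exact An.analyticMap_comp A (A0 A) (fun a ha => ha.1) ((A.mem_nonunits_iff).mp hA)
    (fun ε hε hlt => valuation_le_of_mem_A0 Fact.out A hA hε hlt) hf hg hgm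

end Fermat.Agent.S19lib.D

end
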