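/-
S19lib / D / Transport  (helper3)  — Project FF, block FF-D, part 2

Transport of charts and admissible families by a symmetry `g : G` of a `SymData`:
* `ell_smul` : semilinear automorphisms preserve the dimension of Riemann–Roch spaces;
* `Chart.smul`, `Chart.smul_pt` : `(g • c).pt (ĝ u) = g • c.pt u`;
* `Fam.smul`, `Fam.smul_Θ` : `(g • a).Θ (ĝ u) = g • a.Θ u`;
* `smul_mem_Kred` : the kernel of reduction is stable under `G`;
* `Fam.Θ_smul_inertia` : `a.Θ (ĝ u) = g • a.Θ u` for `g ∈ I`.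
-/
import Fermat.Agent.S19lib.D.Trans

set_option autoImplicit false
set_option linter.unusedSectionVars false

noncomputable section

namespace Fermat.Agent.S19lib.D

open AlgebraicCurve Fermat.Agent.LSb Fermat.Agent.S18lib Fermat.Agent.S19lib.C
open Fermat.Agent.S19lib.Geom

/-! ### Riemann–Roch spaces under semilinear automorphisms -/

section RR

variable {K F : Type*} [Field K] [Field F] [Algebra K F]

theorem smul_mem_rr (σ : SemilinearAut K F) {E : Divisor K F} {f : F}
    (hf : f ∈ riemannRochSpace E) : σ • f ∈ riemannRochSpace (σ • E) := by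
  rw [mem_riemannRochSpace_iff] at hf ⊢
  intro v
  rcases hf (σ⁻¹ • v) with h | h
  · left; rw [h, smul_zero]
  · right
    rw [SemilinearAut.divisor_smul_apply]
    have := SemilinearAut.ord_smul σ (σ⁻¹ • v) f
    rw [smul_inv_smul] at this
    rw [this]
    exact h

/-- the semilinear bijection `L(E) ≃ L(σ • E)` -/
def rrEquiv (σ : SemilinearAut K F) (E : Divisor K F) :
    riemannRochSpace E ≃+ riemannRochSpace (σ • E) where
  toFun f := ⟨σ • (f : F), smul_mem_rr σ f.2⟩
  invFun f := ⟨σ⁻¹ • (f : F), by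
    have := smul_mem_rr σ⁻¹ f.2
    rwa [inv_smul_smul] at this⟩
  left_inv f := Subtype.ext (inv_smul_smul σ (f : F))
  right_inv f := Subtype.ext (smul_inv_smul σ (f : F))
  map_add' f f' := Subtype.ext (smul_add σ (f : F) (f' : F))

theorem ell_smul (σ : SemilinearAut K F) (E : Divisor K F) : B.ell (σ • E) = B.ell E := by
  have h := rank_eq_of_equiv_equiv (R := K) (R' := K) (SemilinearAut.baseAut σ) (rrEquiv σ E)
    (SemilinearAut.baseAut σ).bijective (fun r m => Subtype.ext (by
      show σ • ((r • m : riemannRochSpace E) : F) = _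
      rw [Submodule.coe_smul, Algebra.smul_def, smul_mul', SemilinearAut.smul_algebraMap]
      show _ = ((SemilinearAut.baseAut σ r • (rrEquiv σ E m) : riemannRochSpace (σ • E)) : F)
      rw [Submodule.coe_smul, Algebra.smul_def]
      rfl))
  rw [B.ell, B.ell, Module.finrank, Module.finrank, h]

theorem smul_sum_pt {ι : Type*} (s : Finset ι) (σ : SemilinearAut K F) (Q : ι → Place K F) :
    σ • (∑ i ∈ s, B.pt (Q i)) = ∑ i ∈ s, B.pt (σ • Q i) := by
  rw [Finset.smul_sum]
  exact Finset.sum_congr rfl fun i _ => SemilinearAut.smul_single σ (Q i) 1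

end RR

variable {L : Type*} [Field L] {A : ValuationSubring L}
variable {F : Type*} [Field F] [Algebra L F]
variable {Fk : Type*} [Field Fk] [Algebra (IsLocalRing.ResidueField A) Fk]
variable [HasPrincipalDivisors L F] [HasPrincipalDivisors (IsLocalRing.ResidueField A) Fk]
variable {G : Type*} [Group G] {D : RedDatum A F Fk} (S : SymData D G)

local notation "k" => IsLocalRing.ResidueField A

/-! ### the base action on `A` -/

/-- the action of `g` on the constants -/
abbrev _root_.Fermat.Agent.S19lib.Geom.SymData.hat (g : G) : L ≃+* L := SemilinearAut.baseAut (S.ρ g)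

theorem _root_.Fermat.Agent.S19lib.Geom.SymData.hat_inv_hat (g : G) (x : L) : S.hat g⁻¹ (S.hat g x) = x := by
  show SemilinearAut.baseAut (S.ρ g⁻¹) (SemilinearAut.baseAut (S.ρ g) x) = x
  rw [map_inv, SemilinearAut.baseAut_inv, RingEquiv.symm_apply_apply]

theorem _root_.Fermat.Agent.S19lib.Geom.SymData.hat_hat_inv (g : G) (x : L) : S.hat g (S.hat g⁻¹ x) = x := by
  have := S.hat_inv_hat g⁻¹ x
  rwa [inv_inv] at this

theorem _root_.Fermat.Agent.S19lib.Geom.SymData.hat_mem_iff (g : G) (x : L) : S.hat g x ∈ A ↔ x ∈ A := by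
  refine ⟨fun h => ?_, S.mem_A g x⟩
  have := S.mem_A g⁻¹ _ h
  rwa [S.hat_inv_hat] at this

/-- `ĝ` preserves the maximal ideal -/
theorem _root_.Fermat.Agent.S19lib.Geom.SymData.valuation_hat_lt_one (g : G) {x : L} (hx : A.valuation x < 1) :
    A.valuation (S.hat g x) < 1 := by
  by_contra hnot
  push Not at hnot
  have hx0 : x ≠ 0 := by
    rintro rfl
    rw [map_zero, map_zero] at hnot
    exact absurd hnot (not_le.2 zero_lt_one)
  have h1 : A.valuation (S.hat g x)⁻¹ ≤ 1 := by
    rw [map_inv₀]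
    exact inv_le_one_of_one_le₀ hnot
  have h2 : (S.hat g x)⁻¹ ∈ A := (A.valuation_le_one_iff _).1 h1
  rw [← map_inv₀] at h2
  have h3 : x⁻¹ ∈ A := (S.hat_mem_iff g _).1 h2
  have h4 : A.valuation x⁻¹ ≤ 1 := (A.valuation_le_one_iff _).2 h3
  rw [map_inv₀] at h4
  have h5 : 1 ≤ A.valuation x := by
    have hpos : 0 < A.valuation x := by
      rw [zero_lt_iff]; exact (Valuation.ne_zero_iff _).2 hx0
    exact (inv_le_one₀ hpos).1 h4
  exact absurd hx (not_lt.2 h5)

theorem _root_.Fermat.Agent.S19lib.Geom.SymData.hat_mem_polyDisc (g : G) {ι : Type*} {u : ι → L} (hu : u ∈ PolyDisc A ι) :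
    (fun i => S.hat g (u i)) ∈ PolyDisc A ι := fun i => S.valuation_hat_lt_one g (hu i)

/-! ### the kernel of reduction is stable -/

theorem smul_mem_Kred (g : G) {z : Pic0 L F} (hz : z ∈ Kred D) : S.ρ g • z ∈ Kred D := by
  obtain ⟨E, rfl, hE⟩ := hz
  rw [SemilinearAut.pic0_smul_mk, mem_Kred_mk_iff, SemilinearAut.coe_degZeroSMulHom]
  have h1 : Finsupp.mapDomain D.r (S.ρ g • (E : Divisor L F))
      = S.ρb g • Finsupp.mapDomain D.r (E : Divisor L F) := by
    rw [SemilinearAut.divisor_smul_def, SemilinearAut.divisor_smul_def,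
      ← Finsupp.mapDomain_comp, ← Finsupp.mapDomain_comp]
    congr 1
    funext P
    exact S.r_smul g P
  rw [h1]
  exact SemilinearAut.smul_mem_principal _ hE

/-- conjugation of inertia: `h ∈ I ⇒ ρ h • (ρ g • x) = ρ g • (ρ (g⁻¹ h g) • x)` -/
theorem smul_smul_conj {X : Type*} [MulAction (SemilinearAut L F) X] (g h : G) (x : X) :
    S.ρ h • S.ρ g • x = S.ρ g • S.ρ (g⁻¹ * h * g) • x := by
  rw [← mul_smul, ← mul_smul, ← map_mul, ← map_mul]
  congr 2
  group

theorem fixF_smul (g : G) {f : F} (hf : S.FixF f) : S.FixF (S.ρ g • f) := fun h hh => by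
  rw [smul_smul_conj S g h f, hf _ (by
    have := S.normal.conj_mem h hh g⁻¹
    rwa [inv_inv] at this)]

theorem fixP_smul (g : G) {P : Place L F} (hP : S.FixP P) : S.FixP (S.ρ g • P) := fun h hh => by
  rw [smul_smul_conj S g h P, hP _ (by
    have := S.normal.conj_mem h hh g⁻¹
    rwa [inv_inv] at this)]

/-! ### transport of charts -/

variable (hdegk : ∀ Q : Place (IsLocalRing.ResidueField A) Fk, Q.deg = 1)
include hdegk

/-- transport of a parameter -/
theorem isParamAt_smul (g : G) {Qb : Place k Fk} {t : F} (ht : IsParamAt D Qb t)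
    {P : Place L F} (hP : D.r P = Qb) :
    IsParamAt D (S.ρb g • Qb) (S.ρ g • t) := by
  refine ⟨S.discReg_smul g ht.1, ?_⟩
  have hreg : RegAt Qb (D.redF t) := ht.1.regAt_redF hP
  rw [S.redF_smul g t ht.1.1, ev_smul_smul (S.ρb g) (hdegk Qb) hreg, ← smul_sub_const,
    SemilinearAut.ord_smul]
  exact ht.2

/-- the transported chart -/
def chartSmul (g : G) {Qb : Place k Fk} (c : Chart D Qb) : Chart D (S.ρb g • Qb) where
  t := S.ρ g • c.t
  P0 := S.ρ g • c.P0
  r_P0 := by rw [S.r_smul, c.r_P0]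
  param := isParamAt_smul S hdegk g c.param c.r_P0
  centred := by
    rw [ev_smul_smul (S.ρ g) (c.deg_one _) (c.param.1.2 _ c.r_P0), c.centred, map_zero]
  deg_one := c.deg_one

theorem chartSmul_pt (g : G) {Qb : Place k Fk} (c : Chart D Qb) {u : L}
    (hu : A.valuation u < 1) :
    (chartSmul S hdegk g c).pt (S.hat g u) = S.ρ g • c.pt u := by
  have hr : D.r (S.ρ g • c.pt u) = S.ρb g • Qb := by rw [S.r_smul, c.r_pt]
  have hev : ev (S.ρ g • c.pt u) (chartSmul S hdegk g c).t = S.hat g u := by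
    show ev (S.ρ g • c.pt u) (S.ρ g • c.t) = _
    rw [ev_smul_smul (S.ρ g) (c.deg_one _) (c.param.1.2 _ (c.r_pt u)), c.ev_pt hu]
  have := (chartSmul S hdegk g c).pt_ev hr
  rw [hev] at this
  exact this

/-! ### transport of families -/

variable {g₀ : ℕ}

/-- the transported family -/
def famSmul (g : G) (a : Fam D S g₀) : Fam D S g₀ where
  Qb i := S.ρb g • a.Qb i
  ch i := chartSmul S hdegk g (a.ch i)
  inj := (MulAction.injective (S.ρb g)).comp a.inj
  fixT i := fixF_smul S g (a.fixT i)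
  fixP i := fixP_smul S g (a.fixP i)
  nonspecial := by
    rw [← smul_sum_pt, ell_smul, a.nonspecial]
  deg_one := a.deg_one

theorem famSmul_Dv (g : G) (a : Fam D S g₀) {u : Fin g₀ → L} (hu : u ∈ PolyDisc A (Fin g₀)) :
    (famSmul S hdegk g a).Dv (fun i => S.hat g (u i)) = S.ρ g • a.Dv u := by
  rw [Fam.Dv, Fam.Dv, Finset.smul_sum]
  refine Finset.sum_congr rfl fun i _ => ?_
  rw [SemilinearAut.smul_single]
  congr 1
  exact chartSmul_pt S hdegk g (a.ch i) (hu i)

theorem famSmul_E (g : G) (a : Fam D S g₀) : (famSmul S hdegk g a).E = S.ρ g • a.E := by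
  rw [Fam.E, Fam.E, Finset.smul_sum]
  refine Finset.sum_congr rfl fun i _ => ?_
  rw [SemilinearAut.smul_single]
  rfl

/-- **equivariance of the parametrisation** -/
theorem famSmul_Θ (g : G) (a : Fam D S g₀) {u : Fin g₀ → L} (hu : u ∈ PolyDisc A (Fin g₀)) :
    (famSmul S hdegk g a).Θ (fun i => S.hat g (u i)) = S.ρ g • a.Θ u := by
  rw [Fam.Θ, Fam.Θ, SemilinearAut.pic0_smul_mk]
  refine congrArg Pic0.mk (Subtype.ext ?_)
  rw [SemilinearAut.coe_degZeroSMulHom]
  show (famSmul S hdegk g a).Dv _ - (famSmul S hdegk g a).E = S.ρ g • (a.Dv u - a.E)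
  rw [famSmul_Dv S hdegk g a hu, famSmul_E, smul_sub]

omit hdegk in
/-- inertia: the same family -/
theorem Θ_smul_inertia {g : G} (hg : g ∈ S.I) (a : Fam D S g₀) {u : Fin g₀ → L}
    (hu : u ∈ PolyDisc A (Fin g₀)) :
    a.Θ (fun i => S.hat g (u i)) = S.ρ g • a.Θ u := by
  rw [Fam.Θ, Fam.Θ, SemilinearAut.pic0_smul_mk]
  refine congrArg Pic0.mk (Subtype.ext ?_)
  rw [SemilinearAut.coe_degZeroSMulHom]
  show a.Dv _ - a.E = S.ρ g • (a.Dv u - a.E)
  rw [smul_sub]
  congr 1
  · rw [Fam.Dv, Fam.Dv, Finset.smul_sum]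
    refine Finset.sum_congr rfl fun i _ => ?_
    rw [SemilinearAut.smul_single, (a.ch i).smul_pt S (a.fixT i) hg (hu i)]
  · rw [Fam.E, Finset.smul_sum]
    refine Finset.sum_congr rfl fun i _ => ?_
    rw [SemilinearAut.smul_single, a.fixP i g hg]

end Fermat.Agent.S19lib.D

end
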