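/-
S19lib / D / Germ  (helper3)  — Project FF, block FF-D, part 3

**The abstract analytic germ** on `Pic⁰(F)`, from the statements of `Geom/Family.lean`
(`ExistsFamStmt`, `ExistsTriStmt`, `KerStmt`, `FixedLiftPlaceStmt`) and the composition property
of analytic maps:

* `exists_tri`, `exists_transition` : any two admissible families are related by an analytic
  transition map;
* `coordOf a` : the inverse of `Θ_a` on the kernel of reduction;
* `exists_germ` : the package (group law, negation, conjugation by `G` analytic; inertia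
  equivariance);
* `exists_fixed_centre` : every class is congruent modulo `Kred` to an inertia-fixed class.
-/
import Fermat.Agent.S19lib.D.Transport

set_option autoImplicit false
set_option linter.unusedSectionVars false

noncomputable section

namespace Fermat.Agent.S19lib.D

open AlgebraicCurve Fermat.Agent.LSb Fermat.Agent.S18lib Fermat.Agent.S19lib.C
open Fermat.Agent.S19lib.Geom

variable {L : Type*} [Field L] {A : ValuationSubring L}
variable {F : Type*} [Field F] [Algebra L F]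
variable {Fk : Type*} [Field Fk] [Algebra (IsLocalRing.ResidueField A) Fk]
variable [HasPrincipalDivisors L F] [HasPrincipalDivisors (IsLocalRing.ResidueField A) Fk]
variable {G : Type*} [Group G] {D : RedDatum A F Fk} {S : SymData D G} {g : ℕ} {ϖ : L}

local notation "k" => IsLocalRing.ResidueField A

/-! ### configurations through a given family -/

theorem exists_tri (hY : ExistsFamStmt D S g) (hX : ExistsTriStmt D S g ϖ) (a : Fam D S g)
    (T : Finset (Place k Fk)) :
    ∃ b c : Fam D S g, a.Disjoint b ∧ b.Avoids T ∧ Nonempty (Tri a b c ϖ) := by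
  classical
  obtain ⟨b, hb⟩ := hY (T ∪ Finset.univ.image a.Qb)
  have hab : a.Disjoint b := fun i j h =>
    hb j (Finset.mem_union_right _ (Finset.mem_image.2 ⟨i, Finset.mem_univ _, h⟩))
  obtain ⟨c, -, -, -, ⟨s1⟩, ⟨s2⟩, ⟨s3⟩⟩ := hX a b hab ∅
  exact ⟨b, c, hab, fun j h => hb j (Finset.mem_union_left _ h), ⟨⟨s1, s2, s3⟩⟩⟩

/-- **transition between two arbitrary admissible families** -/
theorem exists_transition (hY : ExistsFamStmt D S g) (hX : ExistsTriStmt D S g ϖ)
    (hcomp : CompStmt A S.R ϖ) (a a' : Fam D S g) :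
    ∃ χ : (Fin g → L) → Fin g → L, (∀ u ∈ PolyDisc A (Fin g), χ u ∈ PolyDisc A (Fin g)) ∧
      (∀ u ∈ PolyDisc A (Fin g), a'.Θ (χ u) = a.Θ u) ∧ AnalyticMap A S.R ϖ χ := by
  classical
  obtain ⟨b, hb⟩ := hY (Finset.univ.image a.Qb ∪ Finset.univ.image a'.Qb)
  have hab : a.Disjoint b := fun i j h =>
    hb j (Finset.mem_union_left _ (Finset.mem_image.2 ⟨i, Finset.mem_univ _, h⟩))
  have ha'b : a'.Disjoint b := fun i j h =>
    hb j (Finset.mem_union_right _ (Finset.mem_image.2 ⟨i, Finset.mem_univ _, h⟩))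
  obtain ⟨c, -, -, -, ⟨s1⟩, ⟨s2⟩, ⟨s3⟩⟩ := hX a b hab ∅
  obtain ⟨c', -, -, -, ⟨s1'⟩, ⟨s2'⟩, ⟨s3'⟩⟩ := hX a' b ha'b ∅
  set T1 : Tri a b c ϖ := ⟨s1, s2, s3⟩
  set T2 : Tri a' b c' ϖ := ⟨s1', s2', s3'⟩
  refine ⟨fun u => T2.chiBA (T1.chiAB u), fun u hu => T2.chiBA_mem (T1.chiAB_mem hu),
    fun u hu => ?_, ?_⟩
  · rw [T2.Θ_chiBA (T1.chiAB_mem hu), T1.Θ_chiAB hu]
  · exact hcomp _ _ _ T2.chiBA T1.chiAB (T2.analyticMap_chiBA hcomp) (T1.analyticMap_chiAB hcomp)
      (fun u hu => T1.chiAB_mem hu)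

/-! ### coordinates -/

open Classical in
/-- the inverse of `Θ_a` -/
def coordOf (a : Fam D S g) (z : Pic0 L F) : Fin g → L :=
  if h : ∃ u ∈ PolyDisc A (Fin g), a.Θ u = z then h.choose else 0

theorem coordOf_spec (hK : KerStmt D S g) (a : Fam D S g) {z : Pic0 L F} (hz : z ∈ Kred D) :
    coordOf a z ∈ PolyDisc A (Fin g) ∧ a.Θ (coordOf a z) = z := by
  classical
  have h := (hK a).1 z hz
  rw [coordOf, dif_pos h]
  exact h.choose_spec

theorem coordOf_Θ (hK : KerStmt D S g) (a : Fam D S g) {u : Fin g → L}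
    (hu : u ∈ PolyDisc A (Fin g)) : coordOf a (a.Θ u) = u := by
  obtain ⟨h1, h2⟩ := coordOf_spec hK a (a.Θ_mem_Kred u)
  exact (hK a).2 _ h1 _ hu h2

/-! ### the germ -/

/-- **the abstract germ** -/
theorem exists_germ (hY : ExistsFamStmt D S g) (hX : ExistsTriStmt D S g ϖ) (hK : KerStmt D S g)
    (hcomp : CompStmt A S.R ϖ) (hdegk : ∀ Q : Place k Fk, Q.deg = 1) :
    ∃ (Θ : (Fin g → L) → Pic0 L F) (coord : Pic0 L F → Fin g → L),
      (∀ u ∈ PolyDisc A (Fin g), Θ u ∈ Kred D) ∧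
      (∀ z ∈ Kred D, coord z ∈ PolyDisc A (Fin g)) ∧
      (∀ u ∈ PolyDisc A (Fin g), coord (Θ u) = u) ∧
      (∀ z ∈ Kred D, Θ (coord z) = z) ∧
      (∀ h ∈ S.I, ∀ u ∈ PolyDisc A (Fin g), Θ (fun i => S.hat h (u i)) = S.ρ h • Θ u) ∧
      AnalyticMap A S.R ϖ (fun w : Fin g ⊕ Fin g → L => coord (Θ (fstMap w) + Θ (sndMap w))) ∧
      AnalyticMap A S.R ϖ (fun u : Fin g → L => coord (-Θ u)) ∧
      ∀ h : G, AnalyticMap A S.R ϖ
        (fun (u : Fin g → L) (i : Fin g) => S.hat h (coord ((S.ρ h)⁻¹ • Θ u) i)) := by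
  obtain ⟨a, -⟩ := hY ∅
  obtain ⟨b, c, -, -, ⟨T⟩⟩ := exists_tri hY hX a ∅
  refine ⟨a.Θ, coordOf a, fun u _ => a.Θ_mem_Kred u, fun z hz => (coordOf_spec hK a hz).1,
    fun u hu => coordOf_Θ hK a hu, fun z hz => (coordOf_spec hK a hz).2,
    fun h hh u hu => Θ_smul_inertia S hh a hu, ?_, ?_, ?_⟩
  · -- addition
    intro i
    refine (T.analyticMap_addMap hcomp i).congr A fun w hw => ?_
    show T.addMap w i = coordOf a (a.Θ (fstMap w) + a.Θ (sndMap w)) i
    rw [← T.Θ_addMap hw, coordOf_Θ hK a (T.addMap_mem hw)]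
  · -- negation
    intro i
    refine (T.analyticMap_negMap hcomp i).congr A fun u hu => ?_
    show T.negMap u i = coordOf a (-a.Θ u) i
    rw [← T.Θ_negMap hu, coordOf_Θ hK a (T.negMap_mem hu)]
  · -- conjugation
    intro h i
    obtain ⟨χ, hχmem, hχ, hχan⟩ := exists_transition hY hX hcomp a (famSmul S hdegk h a)
    refine (hχan i).congr A fun u hu => ?_
    show χ u i = S.hat h (coordOf a ((S.ρ h)⁻¹ • a.Θ u) i)
    have hz : (S.ρ h)⁻¹ • a.Θ u ∈ Kred D := by
      have := smul_mem_Kred S h⁻¹ (a.Θ_mem_Kred u)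
      rwa [map_inv] at this
    obtain ⟨hw1, hw2⟩ := coordOf_spec hK a hz
    have h1 : (famSmul S hdegk h a).Θ (fun i => S.hat h (coordOf a ((S.ρ h)⁻¹ • a.Θ u) i))
        = a.Θ u := by
      rw [famSmul_Θ S hdegk h a hw1, hw2, smul_inv_smul]
    have h2 := (hK (famSmul S hdegk h a)).2 _ (hχmem u hu) _ (S.hat_mem_polyDisc h hw1)
      ((hχ u hu).trans h1.symm)
    exact congrFun h2 i

/-! ### unramified centres -/

theorem degree_mapDomain_of_deg_one (hdeg : ∀ P : Place L F, P.deg = 1)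
    (φ : Place L F → Place L F) (E : Divisor L F) :
    Divisor.degree (Finsupp.mapDomain φ E) = Divisor.degree E := by
  induction E using Finsupp.induction with
  | zero => simp
  | single_add P n E _ _ ih =>
    rw [Finsupp.mapDomain_add, map_add, map_add, ih, Finsupp.mapDomain_single,
      Divisor.degree_single, Divisor.degree_single, hdeg, hdeg]

/-- every class is congruent modulo the kernel of reduction to an inertia-fixed class -/
theorem exists_fixed_centre (hY0 : FixedLiftPlaceStmt D S) (hdeg : ∀ P : Place L F, P.deg = 1)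
    (z : Pic0 L F) : ∃ y : Pic0 L F, (∀ h ∈ S.I, S.ρ h • y = y) ∧ z - y ∈ Kred D := by
  classical
  obtain ⟨E, rfl⟩ := Pic0.mk_surjective z
  choose lift hlift_r hlift_fix using fun P : Place L F => hY0 (D.r P)
  have hdeg0 : Finsupp.mapDomain lift (E : Divisor L F) ∈ Divisor.degZero (K := L) (F := F) := by
    rw [Divisor.mem_degZero, degree_mapDomain_of_deg_one hdeg]
    exact E.2
  refine ⟨Pic0.mk ⟨Finsupp.mapDomain lift (E : Divisor L F), hdeg0⟩, fun h hh => ?_, ?_⟩
  · rw [SemilinearAut.pic0_smul_mk]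
    refine congrArg Pic0.mk (Subtype.ext ?_)
    rw [SemilinearAut.coe_degZeroSMulHom]
    show S.ρ h • Finsupp.mapDomain lift (E : Divisor L F) = Finsupp.mapDomain lift (E : Divisor L F)
    rw [SemilinearAut.divisor_smul_def, ← Finsupp.mapDomain_comp]
    congr 1
    funext P
    exact hlift_fix P h hh
  · have : Pic0.mk E - Pic0.mk ⟨Finsupp.mapDomain lift (E : Divisor L F), hdeg0⟩
        = Pic0.mk (E - ⟨Finsupp.mapDomain lift (E : Divisor L F), hdeg0⟩) := rfl
    rw [this, mem_Kred_mk_iff]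
    show Finsupp.mapDomain D.r ((E : Divisor L F) - Finsupp.mapDomain lift (E : Divisor L F)) ∈ _
    rw [Finsupp.mapDomain_sub, ← Finsupp.mapDomain_comp]
    have : (D.r ∘ lift) = D.r := funext fun P => hlift_r P
    rw [this, sub_self]
    exact AddSubgroup.zero_mem _

end Fermat.Agent.S19lib.D

end
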