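/-
S19lib / D / Inst  (helper3)  — Project FF, block FF-D, part 4

From the abstract germ (`D/Germ.lean`) to the interface `AnalyticGerm A ℓ (JZero N)` and
`GeomStmt`, given the concrete package `ModInst N ℓ A` (reduction datum of level `N`, symmetry
data of the decomposition group acting through `arithmeticGalois`, and the four geometric
statements of `Geom/Family.lean`).
-/
import Fermat.Agent.S19lib.D.Germ
import Fermat.Agent.S18lib.Setup.Modular

set_option autoImplicit false
set_option linter.unusedSectionVars false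

noncomputable section

namespace Fermat.Agent.S19lib.D

open AlgebraicCurve ModularCurve Fermat.Agent.S18lib Fermat.Agent.S19lib.Geom

local notation "Qb" => AlgebraicClosure ℚ
local notation "GQ" => (AlgebraicClosure ℚ ≃ₐ[ℚ] AlgebraicClosure ℚ)

/-- the concrete package at level `N` -/
structure ModInst (N : ℕ) [NeZero N] (ℓ : ℕ) (A : ValuationSubring Qb) where
  /-- the genus -/
  g : ℕ
  /-- the reduction datum -/
  D : RedDatum A (FBar N) (FRes A N)
  hpd : HasPrincipalDivisors Qb (FBar N)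
  hpdk : HasPrincipalDivisors (kRes A) (FRes A N)
  /-- the symmetries: the decomposition group -/
  S : SymData D ↥(A.decompositionSubgroup ℚ)
  ρ_eq : ∀ h : ↥(A.decompositionSubgroup ℚ),
    S.ρ h = arithmeticGalois (modularFunctionFieldFull N) (h : GQ)
  I_eq : S.I = A.inertiaSubgroup ℚ
  deg_one : ∀ P : Place Qb (FBar N), P.deg = 1
  deg_onek : ∀ Q : Place (kRes A) (FRes A N), Q.deg = 1
  famS : ExistsFamStmt D S g
  triS : ExistsTriStmt D S g ((ℓ : ℕ) : Qb)
  kerS : KerStmt D S g
  liftS : FixedLiftPlaceStmt D S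

namespace ModInst

variable {N : ℕ} [NeZero N] {ℓ : ℕ} {A : ValuationSubring Qb} (M : ModInst N ℓ A)

theorem hat_apply (h : ↥(A.decompositionSubgroup ℚ)) (x : Qb) : M.S.hat h x = (h : GQ) x := by
  show SemilinearAut.baseAut (M.S.ρ h) x = _
  rw [M.ρ_eq]
  rfl

theorem smul_eq (h : ↥(A.decompositionSubgroup ℚ)) (z : JZero N) :
    M.S.ρ h • z = (h : GQ) • z := by
  rw [M.ρ_eq]
  rfl

theorem mem_IA_iff (σ : GQ) :
    σ ∈ IA A ↔ ∃ h : ↥(A.decompositionSubgroup ℚ), h ∈ M.S.I ∧ (h : GQ) = σ := by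
  rw [M.I_eq]
  exact Subgroup.mem_map

theorem IA_le_DA {σ : GQ} (hσ : σ ∈ IA A) : σ ∈ DA A := by
  obtain ⟨h, -, rfl⟩ := Subgroup.mem_map.1 hσ
  exact h.2

/-- the fixed ring of the package is `A0 A` -/
theorem R_eq : M.S.R = A0 A := by
  ext a
  constructor
  · rintro ⟨haA, hfix⟩
    refine ⟨haA, fun σ hσ => ?_⟩
    obtain ⟨h, hh, rfl⟩ := (M.mem_IA_iff σ).1 hσ
    rw [← M.hat_apply]
    exact hfix h hh
  · rintro ⟨haA, hfix⟩
    refine ⟨haA, fun h hh => ?_⟩
    show M.S.hat h a = a
    rw [M.hat_apply]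
    exact hfix _ ((M.mem_IA_iff _).2 ⟨h, hh, rfl⟩)

/-- **the germ of the interface** -/
theorem exists_analyticGerm (M : ModInst N ℓ A) (hcomp : CompStmt A (A0 A) ((ℓ : ℕ) : Qb)) :
    ∃ G : AnalyticGerm A ℓ (JZero N), HasUnramifiedCentres G := by
  have := M.hpd
  have := M.hpdk
  have hcomp' : CompStmt A M.S.R ((ℓ : ℕ) : Qb) := by rw [M.R_eq]; exact hcomp
  obtain ⟨Θ, coord, h1, h2, h3, h4, h5, hadd, hneg, hconj⟩ :=
    exists_germ M.famS M.triS M.kerS hcomp' M.deg_onek
  rw [M.R_eq] at hadd hneg hconj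
  refine ⟨{ g := M.g
            K := Kred M.D
            Θ := Θ
            coord := coord
            Θ_mem := fun u hu => h1 u hu
            coord_mem := fun x hx i => h2 x hx i
            coord_Θ := fun u hu => h3 u hu
            Θ_coord := fun x hx => h4 x hx
            smul_mem := fun σ hσ x hx => by
              have := smul_mem_Kred M.S ⟨σ, hσ⟩ hx
              rwa [M.smul_eq] at this
            Θ_smul := fun σ hσ u hu => by
              obtain ⟨h, hh, rfl⟩ := (M.mem_IA_iff σ).1 hσ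
              have := h5 h hh u hu
              rw [M.smul_eq] at this
              rw [← this]
              congr 1
              funext i
              exact (M.hat_apply h (u i)).symm
            add_analytic := fun i => (a0Analytic_iff A ℓ _).2 (hadd i)
            neg_analytic := fun i => (a0Analytic_iff A ℓ _).2 (hneg i)
            conj_analytic := fun σ hσ i => by
              rw [a0Analytic_iff]
              refine (hconj ⟨σ, hσ⟩ i).congr A fun u _ => ?_
              show M.S.hat ⟨σ, hσ⟩ (coord ((M.S.ρ ⟨σ, hσ⟩)⁻¹ • Θ u) i) = σ (coord (σ⁻¹ • Θ u) i)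
              rw [M.hat_apply]
              congr 2
              have := M.smul_eq ⟨σ, hσ⟩⁻¹ (Θ u)
              rw [map_inv] at this
              exact this }, ?_⟩
  intro x
  obtain ⟨y, hy1, hy2⟩ := exists_fixed_centre M.liftS M.deg_one x
  refine ⟨y, fun σ hσ => ?_, hy2⟩
  obtain ⟨h, hh, rfl⟩ := (M.mem_IA_iff σ).1 hσ
  rw [← M.smul_eq]
  exact hy1 h hh

end ModInst

/-- **`GeomStmt` from the concrete packages** -/
theorem geomStmt_of_modInst
    (hM : ∀ (N : ℕ) [NeZero N] (ℓ : ℕ) [Fact ℓ.Prime], ¬ ℓ ∣ N →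
      ∀ A : ValuationSubring Qb, A.LiesOverPrime ℓ → Nonempty (ModInst N ℓ A))
    (hcomp : ∀ (ℓ : ℕ) [Fact ℓ.Prime] (A : ValuationSubring Qb), A.LiesOverPrime ℓ →
      CompStmt A (A0 A) ((ℓ : ℕ) : Qb)) : GeomStmt := by
  intro N _ ℓ _ hℓN A hA
  obtain ⟨M⟩ := hM N ℓ hℓN A hA
  exact M.exists_analyticGerm (hcomp ℓ A hA)

end Fermat.Agent.S19lib.D

end
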