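/-
S19lib / D / Final  (helper3)  — Project FF, block FF-D, part 7

The concrete package `ModInst N ℓ A` from helper6's modular instance (`B/Inst`, `B/InstCtx`:
reduction datum, symmetry data of the decomposition group, statements (Y0), (Y), (K)) — with the
triple statement **(X)** `ExistsTriStmt` as the only remaining hypothesis — and the resulting
reduction of `GeomStmt` to (X).
-/
import Fermat.Agent.S19lib.D.Inst
import Fermat.Agent.S19lib.D.Comp
import Fermat.Agent.S19lib.B.InstCtx

set_option autoImplicit false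
set_option linter.unusedSectionVars false

noncomputable section

namespace Fermat.Agent.S19lib.D

open AlgebraicCurve ModularCurve Fermat.Agent.S18lib Fermat.Agent.S19lib.Geom

local notation "Qb" => AlgebraicClosure ℚ
local notation "GQ" => (AlgebraicClosure ℚ ≃ₐ[ℚ] AlgebraicClosure ℚ)

/-- the triple statement **(X)** in the modular instances, for every level prime to `ℓ` -/
def ModTriStmt : Prop :=
  ∀ (N : ℕ) [NeZero N] (ℓ : ℕ) [Fact ℓ.Prime] (hℓN : ¬ ℓ ∣ N) (A : ValuationSubring Qb)
    (hA : A.LiesOverPrime ℓ) (g : ℕ), IsCurveOfGenus Qb (FBar N) g →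
    IsCurveOfGenus (kRes A) (FRes A N) g →
    ∀ [HasPrincipalDivisors Qb (FBar N)] [HasPrincipalDivisors (kRes A) (FRes A N)],
    ExistsTriStmt (B.modDatum N A hℓN hA) (B.modSym N A hℓN hA) g ((ℓ : ℕ) : Qb)

/-- **the concrete package, given (X)** -/
theorem nonempty_modInst (N : ℕ) [NeZero N] (ℓ : ℕ) [Fact ℓ.Prime] (hℓN : ¬ ℓ ∣ N)
    (A : ValuationSubring Qb) (hA : A.LiesOverPrime ℓ) {g : ℕ}
    (hF : IsCurveOfGenus Qb (FBar N) g) (hFk : IsCurveOfGenus (kRes A) (FRes A N) g)
    [hpd : HasPrincipalDivisors Qb (FBar N)] [hpdk : HasPrincipalDivisors (kRes A) (FRes A N)]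
    (htri : ExistsTriStmt (B.modDatum N A hℓN hA) (B.modSym N A hℓN hA) g ((ℓ : ℕ) : Qb)) :
    Nonempty (ModInst N ℓ A) := by
  exact ⟨{ g := g
           D := B.modDatum N A hℓN hA
           hpd := hpd
           hpdk := hpdk
           S := B.modSym N A hℓN hA
           ρ_eq := fun _ => rfl
           I_eq := rfl
           deg_one := hF.deg_eq_one
           deg_onek := hFk.deg_eq_one
           famS := B.mod_existsFamStmt N A hℓN hA hF hFk
           triS := htri
           kerS := B.mod_kerStmt N A hℓN hA hF hFk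
           liftS := B.mod_fixedLiftPlaceStmt N A hℓN hA }⟩

/-- **`GeomStmt` from (X)** -/
theorem geomStmt_of_modTriStmt (htri : ModTriStmt) : GeomStmt := by
  refine geomStmt_of_modInst (fun N _ ℓ _ hℓN A hA => ?_) (fun ℓ _ A hA => compStmt_A0 A hA)
  obtain ⟨g, hF, hFk⟩ := B.exists_genus_modDatum N A hℓN hA
  have hpd : HasPrincipalDivisors Qb (FBar N) := hF.hasPrincipalDivisors
  have hpdk : HasPrincipalDivisors (kRes A) (FRes A N) := hFk.hasPrincipalDivisors
  exact nonempty_modInst N ℓ hℓN A hA hF hFk (htri N ℓ hℓN A hA g hF hFk)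

end Fermat.Agent.S19lib.D

end
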