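/-
S19lib / D / Tri  (helper3)  — Project FF, block FF-D, part 8

The triple statement **(X)** `ExistsTriStmt` from the existence of configurations
(`B/TriExists.exists_triData`) and the *solving statement* `SolveStmt` (block FF-C: a configuration
on three pairwise disjoint families gives an analytic solution of the trilinear relation).
-/
import Fermat.Agent.S19lib.D.Final
import Fermat.Agent.S19lib.B.TriExists

set_option autoImplicit false
set_option linter.unusedSectionVars false

noncomputable section

namespace Fermat.Agent.S19lib.D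

open AlgebraicCurve ModularCurve Fermat.Agent.S18lib Fermat.Agent.S19lib.Geom

section Abstract

variable {L : Type*} [Field L] {A : ValuationSubring L}
variable {F : Type*} [Field F] [Algebra L F]
variable {Fk : Type*} [Field Fk] [Algebra (IsLocalRing.ResidueField A) Fk]
variable [HasPrincipalDivisors L F] [HasPrincipalDivisors (IsLocalRing.ResidueField A) Fk]
variable {G : Type*} [Group G]

/-- **FF-C**: a configuration on three pairwise disjoint families gives an analytic solution of
the trilinear relation in the third variable. -/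
def SolveStmt (D : RedDatum A F Fk) (S : SymData D G) (g : ℕ) (ϖ : L) : Prop :=
  ∀ a b c : Fam D S g, a.Disjoint b → b.Disjoint c → c.Disjoint a → B.TriData a b c →
    Nonempty (Solve a b c ϖ)

theorem Fam.Disjoint.symm' {D : RedDatum A F Fk} {S : SymData D G} {g : ℕ} {a b : Fam D S g}
    (h : a.Disjoint b) : b.Disjoint a := fun i j hij => h j i hij.symm

/-- **(X)** from configurations and the solving statement -/
theorem existsTriStmt_of_solveStmt {D : RedDatum A F Fk} {S : SymData D G} {g : ℕ} {ϖ : L}
    (C : B.LiftCtx D S g) (hsolve : SolveStmt D S g ϖ) : ExistsTriStmt D S g ϖ := by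
  intro a b hab T
  obtain ⟨c, hac, hbc, hcT, ⟨Td⟩⟩ := B.exists_triData C a b hab T
  have hca : c.Disjoint a := Fam.Disjoint.symm' hac
  refine ⟨c, hac, hbc, hcT, hsolve a b c hab hbc hca Td,
    hsolve b c a hbc hca hab Td.rotate, hsolve c a b hca hab hbc Td.rotate.rotate⟩

end Abstract

local notation "Qb" => AlgebraicClosure ℚ

/-- the solving statement in the modular instances -/
def ModSolveStmt : Prop :=
  ∀ (N : ℕ) [NeZero N] (ℓ : ℕ) [Fact ℓ.Prime] (hℓN : ¬ ℓ ∣ N) (A : ValuationSubring Qb)
    (hA : A.LiesOverPrime ℓ) (g : ℕ), IsCurveOfGenus Qb (FBar N) g →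
    IsCurveOfGenus (kRes A) (FRes A N) g →
    ∀ [HasPrincipalDivisors Qb (FBar N)] [HasPrincipalDivisors (kRes A) (FRes A N)],
    SolveStmt (B.modDatum N A hℓN hA) (B.modSym N A hℓN hA) g ((ℓ : ℕ) : Qb)

/-- **`GeomStmt` from the solving statement** -/
theorem geomStmt_of_modSolveStmt (h : ModSolveStmt) : GeomStmt :=
  geomStmt_of_modTriStmt fun N _ ℓ _ hℓN A hA g hF hFk _ _ =>
    existsTriStmt_of_solveStmt (B.modLiftCtx N A hℓN hA hF hFk) (h N ℓ hℓN A hA g hF hFk)

end Fermat.Agent.S19lib.D

end
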