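/-
S19lib / D / ModR  (helper3)  — Project FF, block FF-D, part 9

The fixed ring of the modular symmetry data is `A0 A`; the standing hypotheses on `(S.R, ϖ)` of
the analytic calculus (`R ≤ A`, `R` closed under inverses of units, `𝔪 ∩ R ⊆ ϖ A`) in general and
in the modular instance.
-/
import Fermat.Agent.S19lib.D.Tri

set_option autoImplicit false
set_option linter.unusedSectionVars false

noncomputable section

namespace Fermat.Agent.S19lib.D

open AlgebraicCurve ModularCurve Fermat.Agent.S18lib Fermat.Agent.S19lib.Geom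

section Abstract

variable {L : Type*} [Field L] {A : ValuationSubring L}
variable {F : Type*} [Field F] [Algebra L F]
variable {Fk : Type*} [Field Fk] [Algebra (IsLocalRing.ResidueField A) Fk]
variable {G : Type*} [Group G]

/-- the fixed ring lies in `A` -/
theorem symData_R_le {D : RedDatum A F Fk} (S : SymData D G) : S.R ≤ A.toSubring :=
  fun _ ha => ha.1

/-- the fixed ring is closed under inverses of units of `A` -/
theorem symData_inv_mem_R {D : RedDatum A F Fk} (S : SymData D G) :
    ∀ r ∈ S.R, A.valuation r = 1 → r⁻¹ ∈ S.R := by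
  intro r hr hv
  refine ⟨?_, fun g hg => ?_⟩
  · apply A.mem_of_valuation_le_one
    rw [map_inv₀, hv, inv_one]
  · rw [map_inv₀, hr.2 g hg]

end Abstract

local notation "Qb" => AlgebraicClosure ℚ
local notation "GQ" => (AlgebraicClosure ℚ ≃ₐ[ℚ] AlgebraicClosure ℚ)

variable (N : ℕ) [NeZero N] {ℓ : ℕ} [Fact ℓ.Prime] (A : ValuationSubring Qb)
  (hℓN : ¬ ℓ ∣ N) (hA : A.LiesOverPrime ℓ)

/-- the fixed ring of the modular symmetry data is `A0 A` -/
theorem modSym_R_eq : (B.modSym N A hℓN hA).R = A0 A := by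
  ext a
  constructor
  · rintro ⟨haA, hfix⟩
    refine ⟨haA, fun σ hσ => ?_⟩
    obtain ⟨h, hh, rfl⟩ := Subgroup.mem_map.1 hσ
    exact hfix h hh
  · rintro ⟨haA, hfix⟩
    refine ⟨haA, fun h hh => ?_⟩
    exact hfix _ (Subgroup.mem_map.2 ⟨h, hh, rfl⟩)

include hA in
/-- `ℓ` lies in the maximal ideal -/
theorem valuation_ell_lt_one : A.valuation (((ℓ : ℕ) : Qb)) < 1 :=
  (A.mem_nonunits_iff).mp hA

/-- `𝔪 ∩ R ⊆ ℓ A` in the modular instance -/
theorem modSym_valuation_le {ε : Qb} (hε : ε ∈ (B.modSym N A hℓN hA).R)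
    (hlt : A.valuation ε < 1) : A.valuation ε ≤ A.valuation (((ℓ : ℕ) : Qb)) := by
  rw [modSym_R_eq] at hε
  exact valuation_le_of_mem_A0 Fact.out A hA hε hlt

end Fermat.Agent.S19lib.D

end
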