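/-
S19lib / D / Solve  (helper3)  — Project FF, block FF-C, piece (P5): assembly of `Solve`

From a configuration `T : B.TriData a b c`, the algebraic solution (P1: for `(u, v)` in the
polydisc a point `x` of the polydisc and a function with divisor
`a.Dv u + b.Dv v + c.Dv x - B`), and the simple-zero statement (Q2) at `w = 0`, the analytic
solution `Solve a b c ϖ` of the trilinear relation: `τ`, `mem`, `spec` from (P1), `an` from the
Newton application `An.analyticOn_ev_zero`, the analytic minors `An.analyticOn_cross_Lam` and the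
link lemma of `Geom/Sec`.
-/
import Fermat.Agent.S19lib.Geom.Sec
import Fermat.Agent.S19lib.An.Zero
import Fermat.Agent.S19lib.B.Ker
import Fermat.Agent.S19lib.D.ModR

set_option autoImplicit false
set_option linter.unusedSectionVars false

noncomputable section

namespace Fermat.Agent.S19lib.D

open AlgebraicCurve Module Fermat.Agent.LSb Fermat.Agent.S18lib Fermat.Agent.S19lib.C
  Fermat.Agent.S19lib.An Fermat.Agent.S19lib.Geom

variable {L : Type*} [Field L] {A : ValuationSubring L}
variable {F : Type*} [Field F] [Algebra L F]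
variable {Fk : Type*} [Field Fk] [Algebra (IsLocalRing.ResidueField A) Fk]
variable [HasPrincipalDivisors L F] [HasPrincipalDivisors (IsLocalRing.ResidueField A) Fk]
variable {G : Type*} [Group G]
variable {D : RedDatum A F Fk} {S : SymData D G} {g : ℕ}

local notation "k" => IsLocalRing.ResidueField A

/-- the algebraic solution (P1) for a configuration -/
def AlgSolution {a b c : Fam D S g} (T : B.TriData a b c) : Prop :=
  ∀ w ∈ PolyDisc A (Fin g ⊕ Fin g), ∃ x ∈ PolyDisc A (Fin g), ∃ s : F, s ≠ 0 ∧
    ∀ P : Place L F, P.ord s =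
      (a.Dv (fun i => w (Sum.inl i)) + b.Dv (fun i => w (Sum.inr i)) + c.Dv x - T.Bd) P

/-- the simple zero statement (Q2) for a configuration -/
def SimpleZero {a b c : Fam D S g} (T : B.TriData a b c) : Prop :=
  ∀ i, (c.Qb i).ord (D.redF (∑ j, cross (Lam a b T.e 0) j • T.e j)) = 1

theorem Dv_apply_pt_pos (c : Fam D S g) (x : Fin g → L) (i : Fin g) :
    1 ≤ c.Dv x ((c.ch i).pt (x i)) := by
  classical
  rw [Fam.Dv, Finsupp.finset_sum_apply]
  calc (1 : ℤ) = (Finsupp.single ((c.ch i).pt (x i)) (1 : ℤ)) ((c.ch i).pt (x i)) :=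
        Finsupp.single_eq_same.symm
    _ ≤ ∑ j, (Finsupp.single ((c.ch j).pt (x j)) (1 : ℤ)) ((c.ch i).pt (x i)) :=
        Finset.single_le_sum (f := fun j =>
          (Finsupp.single ((c.ch j).pt (x j)) (1 : ℤ)) ((c.ch i).pt (x i)))
          (fun j _ => by
            show 0 ≤ (Finsupp.single ((c.ch j).pt (x j)) (1 : ℤ)) ((c.ch i).pt (x i))
            rw [Finsupp.single_apply]
            split_ifs <;> norm_num) (Finset.mem_univ i)

/-- **assembly of the analytic solution** -/
theorem solve_of_pieces (C : B.LiftCtx D S g) {ϖ : L} (hϖ : A.valuation ϖ < 1)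
    (hε : ∀ ε ∈ S.R, A.valuation ε < 1 → A.valuation ε ≤ A.valuation ϖ)
    {a b c : Fam D S g} (hab : a.Disjoint b) (T : B.TriData a b c)
    (hP1 : AlgSolution T) (hQ2 : SimpleZero T) : Nonempty (Solve a b c ϖ) := by
  classical
  choose! τ hτ using hP1
  have hϖA : ϖ ∈ A := A.mem_of_valuation_le_one _ hϖ.le
  refine ⟨{ τ := τ
            mem := fun w hw => (hτ w hw).1
            spec := fun w hw => ?_
            an := fun i => ?_ }⟩
  · -- the trilinear relation
    obtain ⟨-, s, hs0, hsord⟩ := hτ w hw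
    set u : Fin g → L := fun i => w (Sum.inl i) with hu
    set v : Fin g → L := fun i => w (Sum.inr i) with hv
    have h1 : a.Dv u + b.Dv v + c.Dv (τ w) - T.Bd ∈ Divisor.principal (K := L) (F := F) :=
      ⟨s, hs0, fun P => (hsord P).symm⟩
    have h2 := T.principal
    have h3 : (a.Dv u - a.E) + (b.Dv v - b.E) + (c.Dv (τ w) - c.E)
        ∈ Divisor.principal (K := L) (F := F) := by
      have := AddSubgroup.sub_mem _ h1 h2
      have e : a.Dv u + b.Dv v + c.Dv (τ w) - T.Bd - (a.E + b.E + c.E - T.Bd)
          = (a.Dv u - a.E) + (b.Dv v - b.E) + (c.Dv (τ w) - c.E) := by abel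
      rwa [e] at this
    show Pic0.mk ⟨a.Dv u - a.E, a.sub_mem_degZero u⟩ + Pic0.mk ⟨b.Dv v - b.E, b.sub_mem_degZero v⟩
      + Pic0.mk ⟨c.Dv (τ w) - c.E, c.sub_mem_degZero (τ w)⟩ = 0
    rw [← Pic0.mk_add, ← Pic0.mk_add]
    exact (QuotientAddGroup.eq_zero_iff _).2 h3
  · -- analyticity of the `i`-th coordinate
    have hmain := analyticOn_ev_zero (c.ch i) (C.curvek.deg_eq_one _) S.R (symData_R_le S) hϖ hε
      (symData_inv_mem_R S) T.e (fun j => TriSec.discReg_e_c T i j)
      (fun j n => (c.ch i).coeff_mem_R S (TriSec.discReg_e_c T i j) (c.fixT i) (c.fixP i)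
        (T.e_fix j) n)
      (fun j w => cross (Lam a b T.e w) j)
      (fun j => analyticOn_cross_Lam (symData_R_le S) hϖA a b T.e
        (fun i' j' => TriSec.discReg_e_a T i' j') (fun i' j' => TriSec.discReg_e_b T i' j')
        T.e_fix j)
      (fun w => (c.ch i).pt (τ w i)) (fun w _ => (c.ch i).r_pt _)
      (fun w hw => ?_) (hQ2 i)
    · refine hmain.congr A fun w hw => ?_
      exact (c.ch i).ev_pt ((hτ w hw).1 i)
    · -- the determinant section vanishes at the `i`-th point of `c.Dv (τ w)`
      obtain ⟨-, s, hs0, hsord⟩ := hτ w hw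
      have hZr : D.r ((c.ch i).pt (τ w i)) = c.Qb i := (c.ch i).r_pt _
      refine TriSec.sum_cross_mul_ev_eq_zero T C.orth C.curve C.curvek hab w (s := s) ?_ hs0
        (fun j => (TriSec.discReg_e_c T i j).2 _ hZr) (Or.inr ?_)
      · -- `s ∈ V_w`
        rw [TriSec.V, mem_riemannRochSpace_iff]
        intro P
        right
        rw [hsord P]
        have hc := Finsupp.le_def.1 (B.Fam.Dv_nonneg c (τ w)) P
        simp only [Finsupp.coe_sub, Finsupp.coe_add, Pi.sub_apply, Pi.add_apply,
          Finsupp.coe_zero, Pi.zero_apply] at hc ⊢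
        omega
      · -- `s` vanishes there
        rw [hsord]
        have h1 := Dv_apply_pt_pos c (τ w) i
        have ha := Finsupp.le_def.1 (B.Fam.Dv_nonneg a (fun i => w (Sum.inl i)))
          ((c.ch i).pt (τ w i))
        have hb := Finsupp.le_def.1 (B.Fam.Dv_nonneg b (fun i => w (Sum.inr i)))
          ((c.ch i).pt (τ w i))
        have hB := T.B_disc_c _ i hZr
        simp only [Finsupp.coe_sub, Finsupp.coe_add, Pi.sub_apply, Pi.add_apply,
          Finsupp.coe_zero, Pi.zero_apply] at ha hb ⊢
        omega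

end Fermat.Agent.S19lib.D

end
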