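/-
S19lib / D / SolveFinal  (helper3)  — Project FF, the end of the geometric side

`GeomStmt` from the simple-zero statement (Q2) alone: configurations exist (`B/TriExists`), have
algebraic solutions (`B/TriSolve`), and `D/Solve` assembles the analytic solution.
-/
import Fermat.Agent.S19lib.D.Solve
import Fermat.Agent.S19lib.B.TriSolve

set_option autoImplicit false
set_option linter.unusedSectionVars false

noncomputable section

namespace Fermat.Agent.S19lib.D

open AlgebraicCurve ModularCurve Fermat.Agent.S18lib Fermat.Agent.S19lib.Geom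

section Abstract

variable {L : Type*} [Field L] {A : ValuationSubring L}
variable {F : Type*} [Field F] [Algebra L F]
variable {Fk : Type*} [Field Fk] [Algebra (IsLocalRing.ResidueField A) Fk]
variable [HasPrincipalDivisors L F] [HasPrincipalDivisors (IsLocalRing.ResidueField A) Fk]
variable {G : Type*} [Group G]

/-- **(Q2)** for all configurations on pairwise disjoint families -/
def SimpleZeroStmt (D : RedDatum A F Fk) (S : SymData D G) (g : ℕ) : Prop :=
  ∀ a b c : Fam D S g, a.Disjoint b → b.Disjoint c → c.Disjoint a →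
    ∀ T : B.TriData a b c, SimpleZero T

/-- the solving statement from (Q2) -/
theorem solveStmt_of_simpleZeroStmt {D : RedDatum A F Fk} {S : SymData D G} {g : ℕ}
    (C : B.LiftCtx D S g) {ϖ : L} (hϖ : A.valuation ϖ < 1)
    (hε : ∀ ε ∈ S.R, A.valuation ε < 1 → A.valuation ε ≤ A.valuation ϖ)
    (hQ2 : SimpleZeroStmt D S g) : SolveStmt D S g ϖ :=
  fun a b c hab hbc hca T =>
    solve_of_pieces C hϖ hε hab T (T.algSolution C) (hQ2 a b c hab hbc hca T)

end Abstract

local notation "Qb" => AlgebraicClosure ℚ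

/-- (Q2) in the modular instances -/
def ModSimpleZeroStmt : Prop :=
  ∀ (N : ℕ) [NeZero N] (ℓ : ℕ) [Fact ℓ.Prime] (hℓN : ¬ ℓ ∣ N) (A : ValuationSubring Qb)
    (hA : A.LiesOverPrime ℓ) (g : ℕ), IsCurveOfGenus Qb (FBar N) g →
    IsCurveOfGenus (kRes A) (FRes A N) g →
    ∀ [HasPrincipalDivisors Qb (FBar N)] [HasPrincipalDivisors (kRes A) (FRes A N)],
    SimpleZeroStmt (B.modDatum N A hℓN hA) (B.modSym N A hℓN hA) g

/-- **`GeomStmt` from (Q2)** -/
theorem geomStmt_of_modSimpleZeroStmt (h : ModSimpleZeroStmt) : GeomStmt :=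
  geomStmt_of_modSolveStmt fun N _ ℓ _ hℓN A hA g hF hFk _ _ =>
    solveStmt_of_simpleZeroStmt (B.modLiftCtx N A hℓN hA hF hFk)
      (valuation_ell_lt_one A hA)
      (fun _ hε hlt => modSym_valuation_le N A hℓN hA hε hlt)
      (h N ℓ hℓN A hA g hF hFk)

end Fermat.Agent.S19lib.D

end
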