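/-
S19lib / D / GeomFinal  (helper3)  — Project FF: **`GeomStmt`, unconditional**
-/
import Fermat.Agent.S19lib.D.SolveFinal
import Fermat.Agent.S19lib.An.SimpleZero

set_option autoImplicit false
set_option linter.unusedSectionVars false

noncomputable section

namespace Fermat.Agent.S19lib.D

open AlgebraicCurve ModularCurve Fermat.Agent.S18lib Fermat.Agent.S19lib.Geom

section Abstract

variable {L : Type*} [Field L] {A : ValuationSubring L}
variable {F : Type*} [Field F] [Algebra L F]
variable {Fk : Type*} [Field Fk] [Algebra (IsLocalRing.ResidueField A) Fk]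
variable [HasPrincipalDivisors L F] [HasPrincipalDivisors (IsLocalRing.ResidueField A) Fk]
variable {G : Type*} [Group G]

/-- **(Q2)** holds for every reduction datum with symmetries -/
theorem simpleZeroStmt (D : RedDatum A F Fk) (S : SymData D G) (g : ℕ) : SimpleZeroStmt D S g :=
  fun _ _ _ hab hbc hca T i => An.ord_redF_sec_zero hab hbc hca T i

/-- **the solving statement**: a configuration on three pairwise disjoint families gives an
analytic solution of the trilinear relation -/
theorem solve_of_triData {D : RedDatum A F Fk} {S : SymData D G} {g : ℕ}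
    (C : B.LiftCtx D S g) {ϖ : L} (hϖ : A.valuation ϖ < 1)
    (hε : ∀ ε ∈ S.R, A.valuation ε < 1 → A.valuation ε ≤ A.valuation ϖ) : SolveStmt D S g ϖ :=
  solveStmt_of_simpleZeroStmt C hϖ hε (simpleZeroStmt D S g)

end Abstract

/-- **the geometric side of S19** -/
theorem geomStmt : GeomStmt :=
  geomStmt_of_modSimpleZeroStmt fun N _ _ _ hℓN A hA g _ _ _ _ =>
    simpleZeroStmt (B.modDatum N A hℓN hA) (B.modSym N A hℓN hA) g

end Fermat.Agent.S19lib.D

end
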